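import Mathlib

/-!
# SS / semistable F-core: the semilocal Gauss ring

`F` a field, `R ⊆ F` a subring, `ϖ ∈ R` a non-unit.  `sfc_S R ϖ` is the multiplicative set of
nonzero elements of `R` which are non-zero-divisors modulo `ϖ R`, and `sfc_O R ϖ` is the
localisation `S⁻¹ R ⊆ F`.  When `R / ϖ` is reduced with minimal primes `P₁, …, P_r` this is the
semilocal ring `⋂ R_{P_i}`; when `ϖ` is prime it is the Gauss ring `R_(ϖ)` of `JT3/FCore/Gauss`.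
We prove, elementwise and with no hypothesis on `R / ϖ`: `ϖ` lies in the Jacobson radical of `O`
(`1 + ϖ y` is a unit), `ϖ⁻¹ ∉ O`, saturation `ϖ O ∩ R = ϖ R`, closure under `m`-th roots, and the
comparison `O(R) = O(R[1/x])` for `x ∈ S`.
-/

set_option autoImplicit false

namespace Fermat.Agent.SS

section Gauss

variable {F : Type*} [Field F]

/-- nonzero elements of `R` which are non-zero-divisors modulo `ϖ R` -/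
def sfc_S (R : Subring F) (ϖ : F) : Set F :=
  {s | s ∈ R ∧ s ≠ 0 ∧ ∀ b ∈ R, (∃ c ∈ R, s * b = ϖ * c) → ∃ c ∈ R, b = ϖ * c}

variable {R : Subring F} {ϖ : F}

theorem sfc_S_one : (1 : F) ∈ sfc_S R ϖ :=
  ⟨R.one_mem, one_ne_zero, fun b _ ⟨c, hc, h⟩ => ⟨c, hc, by rwa [one_mul] at h⟩⟩

theorem sfc_S_mul {s t : F} (hs : s ∈ sfc_S R ϖ) (ht : t ∈ sfc_S R ϖ) : s * t ∈ sfc_S R ϖ := by
  refine ⟨R.mul_mem hs.1 ht.1, mul_ne_zero hs.2.1 ht.2.1, fun b hb ⟨c, hc, h⟩ => ?_⟩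
  apply ht.2.2 b hb
  apply hs.2.2 (t * b) (R.mul_mem ht.1 hb)
  exact ⟨c, hc, by rw [← mul_assoc]; exact h⟩

theorem sfc_S_pow {s : F} (hs : s ∈ sfc_S R ϖ) (k : ℕ) : s ^ k ∈ sfc_S R ϖ := by
  induction k with
  | zero => rw [pow_zero]; exact sfc_S_one
  | succ k ih => rw [pow_succ]; exact sfc_S_mul ih hs

/-- The semilocal Gauss ring `S⁻¹ R` inside `F`. -/
def sfc_O (R : Subring F) (ϖ : F) : Subring F where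
  carrier := {z | ∃ s ∈ sfc_S R ϖ, s * z ∈ R}
  mul_mem' := by
    rintro z1 z2 ⟨s1, hs1, h1⟩ ⟨s2, hs2, h2⟩
    refine ⟨s1 * s2, sfc_S_mul hs1 hs2, ?_⟩
    have : s1 * s2 * (z1 * z2) = (s1 * z1) * (s2 * z2) := by ring
    rw [this]; exact R.mul_mem h1 h2
  one_mem' := ⟨1, sfc_S_one, by rw [mul_one]; exact R.one_mem⟩
  add_mem' := by
    rintro z1 z2 ⟨s1, hs1, h1⟩ ⟨s2, hs2, h2⟩
    refine ⟨s1 * s2, sfc_S_mul hs1 hs2, ?_⟩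
    have : s1 * s2 * (z1 + z2) = s2 * (s1 * z1) + s1 * (s2 * z2) := by ring
    rw [this]; exact R.add_mem (R.mul_mem hs2.1 h1) (R.mul_mem hs1.1 h2)
  zero_mem' := ⟨1, sfc_S_one, by rw [mul_zero]; exact R.zero_mem⟩
  neg_mem' := by
    rintro z ⟨s, hs, h⟩
    exact ⟨s, hs, by rw [mul_neg]; exact R.neg_mem h⟩

theorem sfc_mem_O {z : F} : z ∈ sfc_O R ϖ ↔ ∃ s ∈ sfc_S R ϖ, s * z ∈ R := Iff.rfl

theorem sfc_le_O {z : F} (hz : z ∈ R) : z ∈ sfc_O R ϖ :=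
  ⟨1, sfc_S_one, by rwa [one_mul]⟩

/-- `ϖ⁻¹ ∉ O` when `ϖ` is a non-unit of `R`. -/
theorem sfc_pi_inv_not_mem (hnu : ϖ⁻¹ ∉ R) : ϖ⁻¹ ∉ sfc_O R ϖ := by
  rintro ⟨s, hs, h⟩
  have hϖ0 : ϖ ≠ 0 := by rintro rfl; rw [inv_zero] at hnu; exact hnu R.zero_mem
  obtain ⟨c, hc, h1⟩ := hs.2.2 1 R.one_mem ⟨s * ϖ⁻¹, h, by
    rw [mul_one, mul_comm s, ← mul_assoc, mul_inv_cancel₀ hϖ0, one_mul]⟩
  apply hnu
  rw [inv_eq_of_mul_eq_one_right h1.symm]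
  exact hc

/-- `ϖ` lies in the Jacobson radical of `O`: `1 + ϖ y` is a unit of `O`. -/
theorem sfc_jac (hϖ : ϖ ∈ R) (hnu : ϖ⁻¹ ∉ R) {y : F} (hy : y ∈ sfc_O R ϖ) :
    (1 + ϖ * y)⁻¹ ∈ sfc_O R ϖ := by
  obtain ⟨s, hs, h⟩ := hy
  have hϖ0 : ϖ ≠ 0 := by rintro rfl; rw [inv_zero] at hnu; exact hnu R.zero_mem
  set t := s + ϖ * (s * y) with ht
  have htR : t ∈ R := R.add_mem hs.1 (R.mul_mem hϖ h)
  have htS : ∀ b ∈ R, (∃ c ∈ R, t * b = ϖ * c) → ∃ c ∈ R, b = ϖ * c := by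
    rintro b hb ⟨c, hc, hcb⟩
    apply hs.2.2 b hb
    refine ⟨c - s * y * b, R.sub_mem hc (R.mul_mem h hb), ?_⟩
    rw [mul_sub, ← hcb, ht]; ring
  have ht0 : t ≠ 0 := by
    intro h0
    obtain ⟨c, hc, h1⟩ := htS 1 R.one_mem ⟨0, R.zero_mem, by rw [h0, zero_mul, mul_zero]⟩
    apply hnu
    rw [inv_eq_of_mul_eq_one_right h1.symm]
    exact hc
  have hts : t = s * (1 + ϖ * y) := by rw [ht]; ring
  have h10 : 1 + ϖ * y ≠ 0 := by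
    intro h0; apply ht0; rw [hts, h0, mul_zero]
  refine ⟨t, ⟨htR, ht0, htS⟩, ?_⟩
  rw [hts, mul_assoc, mul_inv_cancel₀ h10, mul_one]
  exact hs.1

/-- saturation: `ϖ O ∩ R = ϖ R`. -/
theorem sfc_sat (hnu : ϖ⁻¹ ∉ R) {y : F} (hy : y ∈ sfc_O R ϖ) (h : ϖ * y ∈ R) : y ∈ R := by
  obtain ⟨s, hs, hsy⟩ := hy
  have hϖ0 : ϖ ≠ 0 := by rintro rfl; rw [inv_zero] at hnu; exact hnu R.zero_mem
  obtain ⟨c, hc, h1⟩ := hs.2.2 (ϖ * y) h ⟨s * y, hsy, by ring⟩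
  rw [mul_left_cancel₀ hϖ0 h1]
  exact hc

/-- `O` is closed under `m`-th roots if `R` is. -/
theorem sfc_root {m : ℕ} (hm : m ≠ 0) (hroot : ∀ z : F, z ^ m ∈ R → z ∈ R) {z : F}
    (hz : z ^ m ∈ sfc_O R ϖ) : z ∈ sfc_O R ϖ := by
  obtain ⟨s, hs, h⟩ := hz
  refine ⟨s, hs, hroot _ ?_⟩
  obtain ⟨k, rfl⟩ := Nat.exists_eq_succ_of_ne_zero hm
  have : (s * z) ^ (k + 1) = s ^ k * (s * z ^ (k + 1)) := by ring
  rw [this]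
  exact R.mul_mem (R.pow_mem hs.1 k) h

/-- The set `ϖ O`. -/
def sfc_piO (R : Subring F) (ϖ : F) : Set F := {z | ∃ y ∈ sfc_O R ϖ, z = ϖ * y}

theorem sfc_piO_zero : (0 : F) ∈ sfc_piO R ϖ := ⟨0, zero_mem _, by rw [mul_zero]⟩

theorem sfc_piO_add {z1 z2 : F} (h1 : z1 ∈ sfc_piO R ϖ) (h2 : z2 ∈ sfc_piO R ϖ) :
    z1 + z2 ∈ sfc_piO R ϖ := by
  obtain ⟨y1, hy1, rfl⟩ := h1
  obtain ⟨y2, hy2, rfl⟩ := h2
  exact ⟨y1 + y2, add_mem hy1 hy2, by ring⟩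

theorem sfc_piO_neg {z : F} (h : z ∈ sfc_piO R ϖ) : -z ∈ sfc_piO R ϖ := by
  obtain ⟨y, hy, rfl⟩ := h
  exact ⟨-y, neg_mem hy, by ring⟩

theorem sfc_piO_sub {z1 z2 : F} (h1 : z1 ∈ sfc_piO R ϖ) (h2 : z2 ∈ sfc_piO R ϖ) :
    z1 - z2 ∈ sfc_piO R ϖ := by
  rw [sub_eq_add_neg]; exact sfc_piO_add h1 (sfc_piO_neg h2)

theorem sfc_piO_mul_left {o z : F} (ho : o ∈ sfc_O R ϖ) (h : z ∈ sfc_piO R ϖ) :
    o * z ∈ sfc_piO R ϖ := by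
  obtain ⟨y, hy, rfl⟩ := h
  exact ⟨o * y, mul_mem ho hy, by ring⟩

theorem sfc_piO_subset (hϖ : ϖ ∈ R) {z : F} (h : z ∈ sfc_piO R ϖ) : z ∈ sfc_O R ϖ := by
  obtain ⟨y, hy, rfl⟩ := h
  exact mul_mem (sfc_le_O hϖ) hy

theorem sfc_one_not_mem_piO (hnu : ϖ⁻¹ ∉ R) : (1 : F) ∉ sfc_piO R ϖ := by
  rintro ⟨y, hy, h⟩
  apply sfc_pi_inv_not_mem hnu
  rw [inv_eq_of_mul_eq_one_right h.symm]
  exact hy

end Gauss

section Compare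

variable {F : Type*} [Field F] {R R' : Subring F} {ϖ x : F}

/-- `S(R) ⊆ S(R')` when `R' = R[1/x]` -/
theorem sfc_S_mono (hle : R ≤ R') (hx : x ∈ R) (hxinv : x⁻¹ ∈ R') (hx0 : x ≠ 0)
    (hclear : ∀ z ∈ R', ∃ k : ℕ, x ^ k * z ∈ R) {s : F} (hs : s ∈ sfc_S R ϖ) :
    s ∈ sfc_S R' ϖ := by
  refine ⟨hle hs.1, hs.2.1, ?_⟩
  rintro b hb ⟨c, hc, h⟩
  obtain ⟨k1, hk1⟩ := hclear b hb
  obtain ⟨k2, hk2⟩ := hclear c hc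
  -- common exponent
  have hb' : x ^ (k1 + k2) * b ∈ R := by
    rw [pow_add, mul_comm (x ^ k1), mul_assoc]; exact R.mul_mem (R.pow_mem hx _) hk1
  have hc' : x ^ (k1 + k2) * c ∈ R := by
    rw [pow_add, mul_assoc]; exact R.mul_mem (R.pow_mem hx _) hk2
  obtain ⟨d, hd, hbd⟩ := hs.2.2 _ hb' ⟨_, hc', by
    rw [← mul_assoc, mul_comm s, mul_assoc, h]; ring⟩
  refine ⟨x⁻¹ ^ (k1 + k2) * d, R'.mul_mem (R'.pow_mem hxinv _) (hle hd), ?_⟩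
  have hxk : x ^ (k1 + k2) ≠ 0 := pow_ne_zero _ hx0
  apply mul_left_cancel₀ hxk
  rw [hbd, inv_pow]
  field_simp

/-- an element of `S(R')` becomes an element of `S(R)` after multiplication by a power of `x`,
provided `x ∈ S(R)` -/
theorem sfc_S_clear (hle : R ≤ R') (hxS : x ∈ sfc_S R ϖ)
    (hclear : ∀ z ∈ R', ∃ k : ℕ, x ^ k * z ∈ R) {s : F} (hs : s ∈ sfc_S R' ϖ) :
    ∃ k : ℕ, x ^ k * s ∈ sfc_S R ϖ := by
  obtain ⟨k, hk⟩ := hclear s hs.1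
  refine ⟨k, hk, mul_ne_zero (pow_ne_zero _ hxS.2.1) hs.2.1, ?_⟩
  rintro b hb ⟨c, hc, h⟩
  -- in `R'`: `ϖ ∣ x^k b`
  obtain ⟨c', hc', h1⟩ := hs.2.2 (x ^ k * b) (R'.mul_mem (R'.pow_mem (hle hxS.1) _) (hle hb))
    ⟨c, hle hc, by rw [← h]; ring⟩
  -- clear the denominator of `c'`
  obtain ⟨j, hj⟩ := hclear c' hc'
  have h2 : x ^ (j + k) * b = ϖ * (x ^ j * c') := by
    rw [pow_add, mul_assoc, h1]; ring
  exact (sfc_S_pow hxS (j + k)).2.2 b hb ⟨_, hj, h2⟩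

/-- **Comparison of the semilocal Gauss rings** of `R` and `R' = R[1/x]`, `x ∈ S(R)`. -/
theorem sfc_O_eq (hle : R ≤ R') (hxS : x ∈ sfc_S R ϖ) (hxinv : x⁻¹ ∈ R')
    (hclear : ∀ z ∈ R', ∃ k : ℕ, x ^ k * z ∈ R) : sfc_O R ϖ = sfc_O R' ϖ := by
  ext z
  constructor
  · rintro ⟨s, hs, h⟩
    exact ⟨s, sfc_S_mono hle hxS.1 hxinv hxS.2.1 hclear hs, hle h⟩
  · rintro ⟨s, hs, h⟩
    obtain ⟨k, hk⟩ := sfc_S_clear hle hxS hclear hs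
    obtain ⟨j, hj⟩ := hclear _ h
    refine ⟨x ^ j * (x ^ k * s), sfc_S_mul (sfc_S_pow hxS j) hk, ?_⟩
    have : x ^ j * (x ^ k * s) * z = x ^ k * (x ^ j * (s * z)) := by ring
    rw [this]
    exact R.mul_mem (R.pow_mem hxS.1 k) hj

theorem sfc_piO_eq (hle : R ≤ R') (hxS : x ∈ sfc_S R ϖ) (hxinv : x⁻¹ ∈ R')
    (hclear : ∀ z ∈ R', ∃ k : ℕ, x ^ k * z ∈ R) : sfc_piO R ϖ = sfc_piO R' ϖ := by
  unfold sfc_piO
  rw [sfc_O_eq hle hxS hxinv hclear]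

end Compare

end Fermat.Agent.SS
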