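/-
SS / semistable F-core, helper12: Newton lifting of the `m`-th root section over a SEMILOCAL Gauss
ring.  Twin of `JT3/FCore/Newton.lean` (`fcn_newton`); the only property of the local Gauss ring
used there is that `1 + π y` is a unit of `O`, which holds as soon as `π` lies in the Jacobson
radical of `O`.  The chart-level lemmas `fcn_I_*`, `fcn_one_sub_pow`, `fcn_pow_sub_one` are reused.
-/
import Mathlib
import Fermat.Agent.JT3.FCore.Newton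

set_option autoImplicit false

namespace Fermat.Agent.SS

open Fermat.Agent.JT3

section Newton

variable {A0 F0 : Type*} [CommRing A0] [Field F0] [Algebra A0 F0]

variable (π : A0) (m : ℕ) (B : Subalgebra A0 F0) (O : Subring F0) (f : F0)

local notation "ϖ" => algebraMap A0 F0 π

variable {π m B O f}

variable (π O) in
/-- `O` is a subring of `F0` with `π` in its Jacobson radical, `π` not a unit -/
structure sfn_Jac : Prop where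
  jac : ∀ y ∈ O, (1 + ϖ * y)⁻¹ ∈ O
  nonunit : (ϖ)⁻¹ ∉ O
  pi_mem : ϖ ∈ O

theorem sfn_Jac.pi_ne_zero (hO : sfn_Jac π O) : ϖ ≠ 0 := by
  intro h
  apply hO.nonunit
  rw [h, inv_zero]
  exact O.zero_mem

/-- `1 + π y` is a unit of `O` -/
theorem sfn_Jac.inv_mem (hO : sfn_Jac π O) {y : F0} (hy : y ∈ O) : (1 + ϖ * y)⁻¹ ∈ O :=
  hO.jac y hy

theorem sfn_Jac.one_add_ne_zero (hO : sfn_Jac π O) {y : F0} (hy : y ∈ O) :
    1 + ϖ * y ≠ 0 := by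
  intro h
  apply hO.nonunit
  have h1 : ϖ * (-y) = 1 := by
    have : ϖ * y = -1 := by rw [← sub_eq_zero]; rw [← h]; ring
    rw [mul_neg, this, neg_neg]
  rw [inv_eq_of_mul_eq_one_right h1]
  exact O.neg_mem hy

/-- `π`-saturation for powers -/
theorem sfn_Jac.sat_pow (hO : sfn_Jac π O) (hsat : ∀ y ∈ O, ϖ * y ∈ B → y ∈ B) (n : ℕ) :
    ∀ y ∈ O, ϖ ^ n * y ∈ B → y ∈ B := by
  induction n with
  | zero => intro y _ h; simpa using h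
  | succ n ih =>
    intro y hy h
    apply ih y hy
    apply hsat _ (O.mul_mem (O.pow_mem hO.pi_mem n) hy)
    rw [← mul_assoc, ← pow_succ']
    exact h

/-- sections are `π`-integral -/
theorem sfn_Jac.I_subset (hO : sfn_Jac π O) (hBO : ∀ z ∈ B, z ∈ O)
    (hrootO : ∀ z : F0, z ^ m ∈ O → z ∈ O) (hf : ∃ y ∈ O, f - 1 = ϖ * y) {h : F0}
    (hh : h ∈ fcn_I m B f) : h ∈ O := by
  obtain ⟨y, hy, hfy⟩ := hf
  have hf' : f = 1 + ϖ * y := by rw [← hfy]; ring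
  have hf0 : f ≠ 0 := by rw [hf']; exact hO.one_add_ne_zero hy
  have hfinv : f⁻¹ ∈ O := by rw [hf']; exact hO.inv_mem hy
  apply hrootO
  have : h ^ m = h ^ m * f * f⁻¹ := by rw [mul_assoc, mul_inv_cancel₀ hf0, mul_one]
  rw [this]
  exact O.mul_mem (hBO _ hh) hfinv

theorem sfn_Jac.f_mem (hO : sfn_Jac π O) (hf : ∃ y ∈ O, f - 1 = ϖ * y) : f ∈ O := by
  obtain ⟨y, hy, hfy⟩ := hf
  have hf' : f = 1 + ϖ * y := by rw [← hfy]; ring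
  rw [hf']
  exact O.add_mem O.one_mem (O.mul_mem hO.pi_mem hy)

/-- saturation of the sections -/
theorem sfn_Jac.I_sat (hO : sfn_Jac π O) (hsat : ∀ y ∈ O, ϖ * y ∈ B → y ∈ B)
    (hf : ∃ y ∈ O, f - 1 = ϖ * y) (n : ℕ) {y : F0} (hy : y ∈ O)
    (hh : ϖ ^ n * y ∈ fcn_I m B f) : y ∈ fcn_I m B f := by
  show y ^ m * f ∈ B
  have h1 : ϖ ^ (n * m) * (y ^ m * f) ∈ B := by
    have : ϖ ^ (n * m) * (y ^ m * f) = (ϖ ^ n * y) ^ m * f := by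
      rw [mul_pow, ← pow_mul]; ring
    rw [this]
    exact hh
  exact hO.sat_pow hsat (n * m) _ (O.mul_mem (O.pow_mem hy m) (hO.f_mem hf)) h1

variable (π m B O f) in
/-- approximate `m`-th root sections of level `n` -/
def sfn_S (n : ℕ) (h : F0) : Prop :=
  h ∈ fcn_I m B f ∧ (∃ y ∈ O, h - 1 = ϖ * y) ∧ ∃ b ∈ B, h ^ m * f = 1 + ϖ ^ n * b

theorem sfn_S_one (hO : sfn_Jac π O)
    (hsat : ∀ y ∈ O, ϖ * y ∈ B → y ∈ B) (hf : ∃ y ∈ O, f - 1 = ϖ * y) {h : F0}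
    (hh : h ∈ fcn_I m B f) (hy : ∃ y ∈ O, h - 1 = ϖ * y) : sfn_S π m B O f 1 h := by
  refine ⟨hh, hy, ?_⟩
  obtain ⟨y, hyO, hhy⟩ := hy
  obtain ⟨yf, hyf, hfy⟩ := hf
  have hhO : h ∈ O := by
    have : h = 1 + ϖ * y := by rw [← hhy]; ring
    rw [this]; exact O.add_mem O.one_mem (O.mul_mem hO.pi_mem hyO)
  have hfO : f ∈ O := hO.f_mem ⟨yf, hyf, hfy⟩
  obtain ⟨g, hg, hgeq, -⟩ := fcn_pow_sub_one O hhO m
  set b := y * g * f + yf with hb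
  have hbO : b ∈ O := O.add_mem (O.mul_mem (O.mul_mem hyO hg) hfO) hyf
  have hkey : h ^ m * f - 1 = ϖ * b := by
    have : h ^ m * f - 1 = (h ^ m - 1) * f + (f - 1) := by ring
    rw [this, hgeq, hhy, hfy, hb]; ring
  have hbB : b ∈ B := by
    apply hsat b hbO
    rw [← hkey]
    exact B.sub_mem hh B.one_mem
  exact ⟨b, hbB, by rw [pow_one, ← hkey]; ring⟩

theorem sfn_S_succ (hO : sfn_Jac π O) (hBO : ∀ z ∈ B, z ∈ O) {μ : F0} (hμ : μ ∈ B)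
    (hmμ : (m : F0) * μ = 1) {k : ℕ} {h : F0} (hS : sfn_S π m B O f (k + 1) h) :
    ∃ h' : F0, sfn_S π m B O f (k + 2) h' := by
  obtain ⟨hh, ⟨y, hyO, hhy⟩, b, hbB, hb⟩ := hS
  have hϖB : ϖ ∈ B := B.algebraMap_mem π
  have hhO : h ∈ O := by
    have : h = 1 + ϖ * y := by rw [← hhy]; ring
    rw [this]; exact O.add_mem O.one_mem (O.mul_mem hO.pi_mem hyO)
  set z := ϖ ^ (k + 1) * b with hz
  have hzB : z ∈ B := B.mul_mem (B.pow_mem hϖB _) hbB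
  set w := z * μ with hw
  have hwB : w ∈ B := B.mul_mem hzB hμ
  obtain ⟨s, hs, hexp⟩ := fcn_one_sub_pow B.toSubring (show w ∈ B.toSubring from hwB) m
  have hsB : s ∈ B := hs
  have hmw : (m : F0) * w = z := by rw [hw, mul_comm z μ, ← mul_assoc, hmμ, one_mul]
  refine ⟨(1 - w) * h, fcn_I_smul (B.sub_mem B.one_mem hwB) hh, ?_, ?_⟩
  · refine ⟨y - ϖ ^ k * b * μ * h, ?_, ?_⟩
    · exact O.sub_mem hyO (O.mul_mem (O.mul_mem (O.mul_mem (O.pow_mem hO.pi_mem k) (hBO _ hbB))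
        (hBO _ hμ)) hhO)
    · have : (1 - w) * h - 1 = (h - 1) - w * h := by ring
      rw [this, hhy, hw, hz, pow_succ]; ring
  · refine ⟨ϖ ^ k * b ^ 2 * (-1 + (1 + z) * μ ^ 2 * s), ?_, ?_⟩
    · refine B.mul_mem (B.mul_mem (B.pow_mem hϖB k) (B.pow_mem hbB 2)) ?_
      exact B.add_mem (B.neg_mem B.one_mem)
        (B.mul_mem (B.mul_mem (B.add_mem B.one_mem hzB) (B.pow_mem hμ 2)) hsB)
    · have h1 : ((1 - w) * h) ^ m * f = (h ^ m * f) * (1 - w) ^ m := by rw [mul_pow]; ring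
      rw [h1, hb, hexp, hmw]
      have hz2 : z ^ 2 = ϖ ^ (k + 2) * (ϖ ^ k * b ^ 2) := by rw [hz]; ring
      have hw2 : w ^ 2 = z ^ 2 * μ ^ 2 := by rw [hw]; ring
      rw [hw2]
      have : (1 + z) * (1 - z + z ^ 2 * μ ^ 2 * s) = 1 + z ^ 2 * (-1 + (1 + z) * μ ^ 2 * s) := by
        ring
      rw [this, hz2]; ring

theorem sfn_S_exists (hO : sfn_Jac π O) (hBO : ∀ z ∈ B, z ∈ O)
    (hsat : ∀ y ∈ O, ϖ * y ∈ B → y ∈ B) (hf : ∃ y ∈ O, f - 1 = ϖ * y) {μ : F0} (hμ : μ ∈ B)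
    (hmμ : (m : F0) * μ = 1)
    (hs : ∃ h : F0, h ^ m * f ∈ B ∧ ∃ y ∈ O, h - 1 = ϖ * y) (k : ℕ) :
    ∃ h : F0, sfn_S π m B O f (k + 1) h := by
  induction k with
  | zero =>
    obtain ⟨h, hh, hy⟩ := hs
    exact ⟨h, sfn_S_one hO hsat hf hh hy⟩
  | succ k ih =>
    obtain ⟨h, hS⟩ := ih
    exact sfn_S_succ hO hBO hμ hmμ hS

/-- two approximate roots of level `n` (possibly on different charts) agree modulo `π ^ n`. -/
theorem sfn_compare (hO : sfn_Jac π O) {B' : Subalgebra A0 F0} (hBO : ∀ z ∈ B, z ∈ O)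
    (hBO' : ∀ z ∈ B', z ∈ O) (hf : ∃ y ∈ O, f - 1 = ϖ * y) {μ : F0} (hμ : μ ∈ O)
    (hmμ : (m : F0) * μ = 1) {k : ℕ} {h1 h2 : F0} (hS1 : sfn_S π m B O f (k + 1) h1)
    (hS2 : sfn_S π m B' O f (k + 1) h2) : ∃ ν ∈ O, h1 - h2 = ϖ ^ (k + 1) * ν := by
  obtain ⟨-, ⟨y1, hy1, hh1⟩, b1, hb1B, hb1⟩ := hS1
  obtain ⟨-, ⟨y2, hy2, hh2⟩, b2, hb2B, hb2⟩ := hS2
  obtain ⟨yf, hyf, hfy⟩ := hf
  have hϖO : ϖ ∈ O := hO.pi_mem
  have hf' : f = 1 + ϖ * yf := by rw [← hfy]; ring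
  have hf0 : f ≠ 0 := by rw [hf']; exact hO.one_add_ne_zero hyf
  have hh1' : h1 = 1 + ϖ * y1 := by rw [← hh1]; ring
  have hh2' : h2 = 1 + ϖ * y2 := by rw [← hh2]; ring
  have hh1O : h1 ∈ O := by rw [hh1']; exact O.add_mem O.one_mem (O.mul_mem hϖO hy1)
  have hh2O : h2 ∈ O := by rw [hh2']; exact O.add_mem O.one_mem (O.mul_mem hϖO hy2)
  have hh20 : h2 ≠ 0 := by rw [hh2']; exact hO.one_add_ne_zero hy2
  have hh2inv : h2⁻¹ ∈ O := by rw [hh2']; exact hO.inv_mem hy2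
  have hb1O := hBO _ hb1B
  have hb2O := hBO' _ hb2B
  -- the denominator D
  set D := 1 + ϖ ^ (k + 1) * b2 with hD
  have hD' : D = 1 + ϖ * (ϖ ^ k * b2) := by rw [hD, pow_succ]; ring
  have hDy : ϖ ^ k * b2 ∈ O := O.mul_mem (O.pow_mem hϖO k) hb2O
  have hD0 : D ≠ 0 := by rw [hD']; exact hO.one_add_ne_zero hDy
  have hDinv : D⁻¹ ∈ O := by rw [hD']; exact hO.inv_mem hDy
  -- u := h1 / h2
  set u := h1 * h2⁻¹ with hu
  have huO : u ∈ O := O.mul_mem hh1O hh2inv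
  have hu1 : u - 1 = ϖ * ((y1 - y2) * h2⁻¹) := by
    have : u - 1 = (h1 - h2) * h2⁻¹ := by
      rw [hu, sub_mul, mul_inv_cancel₀ hh20]
    rw [this, hh1', hh2']; ring
  have hum : u ^ m - 1 = ϖ ^ (k + 1) * ((b1 - b2) * D⁻¹) := by
    have h2m0 : h2 ^ m ≠ 0 := pow_ne_zero _ hh20
    have e1 : u ^ m = (h1 ^ m * f) * (h2 ^ m * f)⁻¹ := by
      rw [hu, mul_pow, inv_pow, mul_inv]
      field_simp
    rw [e1, hb1, hb2]
    have : b1 = b2 + (b1 - b2) := by ring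
    have e2 : 1 + ϖ ^ (k + 1) * b1 = D + ϖ ^ (k + 1) * (b1 - b2) := by rw [hD]; ring
    rw [e2, add_mul, mul_inv_cancel₀ hD0]; ring
  obtain ⟨g, hgO, hgeq, g', hg'O, hg'⟩ := fcn_pow_sub_one O huO m
  -- g is a unit of O
  have hg_eq : g = (m : F0) * (1 + ϖ * (μ * ((y1 - y2) * h2⁻¹) * g')) := by
    have : g = (m : F0) + (u - 1) * g' := by rw [← hg']; ring
    rw [this, hu1]
    have : (m : F0) * (1 + ϖ * (μ * ((y1 - y2) * h2⁻¹) * g')) =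
        (m : F0) + ((m : F0) * μ) * (ϖ * ((y1 - y2) * h2⁻¹) * g') := by ring
    rw [this, hmμ]; ring
  have hyg : μ * ((y1 - y2) * h2⁻¹) * g' ∈ O :=
    O.mul_mem (O.mul_mem hμ (O.mul_mem (O.sub_mem hy1 hy2) hh2inv)) hg'O
  have hm0 : (m : F0) ≠ 0 := by
    intro h0
    rw [h0, zero_mul] at hmμ
    exact zero_ne_one hmμ
  have hminv : ((m : F0))⁻¹ = μ := inv_eq_of_mul_eq_one_right hmμ
  have hg0 : g ≠ 0 := by
    rw [hg_eq]; exact mul_ne_zero hm0 (hO.one_add_ne_zero hyg)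
  have hginv : g⁻¹ ∈ O := by
    rw [hg_eq, mul_inv, hminv]
    exact O.mul_mem hμ (hO.inv_mem hyg)
  refine ⟨(b1 - b2) * D⁻¹ * g⁻¹ * h2, ?_, ?_⟩
  · exact O.mul_mem (O.mul_mem (O.mul_mem (O.sub_mem hb1O hb2O) hDinv) hginv) hh2O
  · have e1 : h1 - h2 = (u - 1) * h2 := by
      rw [hu, sub_mul, mul_assoc, inv_mul_cancel₀ hh20]; ring
    have e2 : u - 1 = (u ^ m - 1) * g⁻¹ := by
      rw [hgeq, mul_assoc, mul_inv_cancel₀ hg0, mul_one]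
    rw [e1, e2, hum]; ring

/-- **Newton lifting, semilocal form**: `fcn_newton` with "`O` local with maximal ideal `π O`"
replaced by "`π` in the Jacobson radical of `O`". -/
theorem sfn_newton (π : A0) (m : ℕ) (hm : IsUnit (m : A0)) (B1 B2 B12 : Subalgebra A0 F0)
    (h1 : B1 ≤ B12) (h2 : B2 ≤ B12) (O : Subring F0) (hBO : ∀ z ∈ B12, z ∈ O)
    (hjac : ∀ y ∈ O, (1 + algebraMap A0 F0 π * y)⁻¹ ∈ O)
    (hπ : (algebraMap A0 F0 π)⁻¹ ∉ O) (hrootO : ∀ z : F0, z ^ m ∈ O → z ∈ O)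
    (hroot1 : ∀ z : F0, z ^ m ∈ B1 → z ∈ B1) (hroot2 : ∀ z : F0, z ^ m ∈ B2 → z ∈ B2)
    (hroot12 : ∀ z : F0, z ^ m ∈ B12 → z ∈ B12)
    (hsat1 : ∀ y ∈ O, algebraMap A0 F0 π * y ∈ B1 → y ∈ B1)
    (hsat2 : ∀ y ∈ O, algebraMap A0 F0 π * y ∈ B2 → y ∈ B2)
    (hsat12 : ∀ y ∈ O, algebraMap A0 F0 π * y ∈ B12 → y ∈ B12)
    (f : F0) (hf : ∃ y ∈ O, f - 1 = algebraMap A0 F0 π * y)
    (hs1 : ∃ h : F0, h ^ m * f ∈ B1 ∧ ∃ y ∈ O, h - 1 = algebraMap A0 F0 π * y)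
    (hs2 : ∃ h : F0, h ^ m * f ∈ B2 ∧ ∃ y ∈ O, h - 1 = algebraMap A0 F0 π * y)
    (hbound : ∃ c0 : ℕ, ∀ μ : F0, μ ^ m * f ∈ B12 → ∀ n : ℕ,
      (∃ a1 a2 : F0, a1 ^ m * f ∈ B1 ∧ a2 ^ m * f ∈ B2 ∧
        algebraMap A0 F0 π ^ n * μ = a1 + a2) →
      ∃ a1 a2 : F0, a1 ^ m * f ∈ B1 ∧ a2 ^ m * f ∈ B2 ∧
        algebraMap A0 F0 π ^ c0 * μ = a1 + a2) :
    ∃ h : F0, h ≠ 0 ∧ h ^ m * f ∈ B1 ∧ h ^ m * f ∈ B2 := by
  have hO : sfn_Jac π O := ⟨hjac, hπ, hBO _ (B12.algebraMap_mem π)⟩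
  have hBO1 : ∀ z ∈ B1, z ∈ O := fun z hz => hBO z (h1 hz)
  have hBO2 : ∀ z ∈ B2, z ∈ O := fun z hz => hBO z (h2 hz)
  -- the inverse of m
  obtain ⟨minv, hminv⟩ := isUnit_iff_exists_inv.1 hm
  set μ := algebraMap A0 F0 minv with hμ
  have hmμ : (m : F0) * μ = 1 := by
    have := congrArg (algebraMap A0 F0) hminv
    rwa [map_mul, map_natCast, map_one] at this
  obtain ⟨c0, hc0⟩ := hbound
  obtain ⟨g1, hS1⟩ := sfn_S_exists hO hBO1 hsat1 hf (B1.algebraMap_mem minv) hmμ hs1 c0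
  obtain ⟨g2, hS2⟩ := sfn_S_exists hO hBO2 hsat2 hf (B2.algebraMap_mem minv) hmμ hs2 c0
  obtain ⟨ν, hνO, hν⟩ := sfn_compare hO hBO1 hBO2 hf (hBO _ (B12.algebraMap_mem minv)) hmμ hS1 hS2
  have hg1I : g1 ∈ fcn_I m B1 f := hS1.1
  have hg2I : g2 ∈ fcn_I m B2 f := hS2.1
  -- ν is a section over B12
  have hνI : ν ∈ fcn_I m B12 f := by
    apply hO.I_sat hsat12 hf (c0 + 1) hνO
    rw [← hν]
    exact fcn_I_sub hroot12 (fcn_I_mono h1 hg1I) (fcn_I_mono h2 hg2I)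
  obtain ⟨a1, a2, ha1, ha2, ha⟩ := hc0 ν hνI (c0 + 1) ⟨g1, -g2, hg1I, fcn_I_neg hg2I, by
    rw [← hν]; ring⟩
  have hϖ1 : algebraMap A0 F0 π ∈ B1 := B1.algebraMap_mem π
  have hϖ2 : algebraMap A0 F0 π ∈ B2 := B2.algebraMap_mem π
  have hdiff : g1 - g2 = algebraMap A0 F0 π * (a1 + a2) := by
    rw [hν, ← ha, pow_succ]; ring
  refine ⟨g1 - algebraMap A0 F0 π * a1, ?_, ?_, ?_⟩
  · -- nonzero: ≡ 1 mod π
    obtain ⟨y, hyO, hy⟩ := hS1.2.1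
    have ha1O : a1 ∈ O := hO.I_subset hBO1 hrootO hf ha1
    intro h0
    apply hπ
    have e : algebraMap A0 F0 π * (a1 - y) = 1 := by
      have : g1 = 1 + algebraMap A0 F0 π * y := by rw [← hy]; ring
      rw [this] at h0
      linear_combination (-1 : F0) * h0
    rw [inv_eq_of_mul_eq_one_right e]
    exact O.sub_mem ha1O hyO
  · exact fcn_I_sub hroot1 hg1I (fcn_I_smul hϖ1 ha1)
  · have : g1 - algebraMap A0 F0 π * a1 = g2 + algebraMap A0 F0 π * a2 := by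
      have := hdiff
      rw [mul_add] at this
      rw [sub_eq_iff_eq_add] at this ⊢
      rw [this]; ring
    rw [this]
    exact fcn_I_add hroot2 hg2I (fcn_I_smul hϖ2 ha2)

end Newton

end Fermat.Agent.SS
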