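import Mathlib
import Fermat.Agent.JT3.FCore.Main
import Fermat.Agent.SS.SFC.Gauss
import Fermat.Agent.SS.SFC.Newton

/-!
# SS / semistable F-core: the main theorem (`sfc_main`)

Twin of `JT3/FCore/Main.lean` (`fc_main`) with "`π` prime in the three charts" replaced by
"`π` is a non-unit of the overlap chart and the coordinate `x` (resp. `x⁻¹`) is a
non-zero-divisor modulo `π` on the first (resp. second) chart", and with STEP 1 taken in its LOCAL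
OUTPUT form as a hypothesis: at every maximal ideal `𝔫 ∋ π` of a chart `B` there are `b₁ ∉ 𝔫` and
`h` with `hᵐ f ∈ B`, `h ≡ b₁ mod π O`.  Here `O = sfc_O B π` is the semilocal Gauss ring
(localisation of `B` at the non-zero-divisors modulo `π`; `= ⋂ B_{P_i}` over the generic points of
the special fibre when `B/π` is reduced).  No reducedness / connectedness hypothesis is needed at
this level: connectedness enters through `hH0` (`B₁ ∩ B₂ = A0`) and reducedness through the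
verification of the local hypotheses by the caller.
-/

set_option autoImplicit false
set_option linter.unusedSectionVars false

namespace Fermat.Agent.SS

open Fermat.Agent.JT3

section Step1

variable {A0 : Type*} [CommRing A0] {F0 : Type*} [Field F0] [Algebra A0 F0]

/-- **STEP 1 on a chart, local-to-global** (no hypothesis on the special fibre): if at every
maximal ideal `𝔫 ∋ π` of the chart `B` there is a section `h` of the `m`-th root module with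
`h ≡ b₁ mod π O`, `b₁ ∉ 𝔫`, then there is a section `h ≡ 1 mod π O`. -/
theorem sfc_step1 (B : Subalgebra A0 F0) (π : A0) (m : ℕ) (hm : m ≠ 0) (f : F0)
    (hroot : ∀ z : F0, z ^ m ∈ B → z ∈ B)
    (hloc : ∀ 𝔫 : Ideal B, 𝔫.IsMaximal → algebraMap A0 B π ∈ 𝔫 →
      ∃ (b1 : B) (h : F0), b1 ∉ 𝔫 ∧ h ^ m * f ∈ B ∧
        h - (b1 : F0) ∈ sfc_piO B.toSubring (algebraMap A0 F0 π)) :
    ∃ h : F0, h ^ m * f ∈ B ∧ h - 1 ∈ sfc_piO B.toSubring (algebraMap A0 F0 π) := by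
  set ϖ := algebraMap A0 F0 π with hϖ
  have hϖB : ϖ ∈ B := B.algebraMap_mem π
  let J : Ideal B :=
    { carrier := {b | ∃ h : F0, h ^ m * f ∈ B ∧ h - (b : F0) ∈ sfc_piO B.toSubring ϖ}
      zero_mem' := ⟨0, by rw [zero_pow hm, zero_mul]; exact B.zero_mem, by
        simp only [ZeroMemClass.coe_zero, sub_zero]; exact sfc_piO_zero⟩
      add_mem' := by
        rintro b b' ⟨h, H, hb⟩ ⟨h', H', hb'⟩
        refine ⟨h + h', fcn_I_add hroot H H', ?_⟩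
        have : h + h' - ((b + b' : B) : F0) = (h - (b : F0)) + (h' - (b' : F0)) := by
          push_cast; ring
        rw [this]
        exact sfc_piO_add hb hb'
      smul_mem' := by
        rintro c b ⟨h, H, hb⟩
        refine ⟨(c : F0) * h, fcn_I_smul c.2 H, ?_⟩
        have : (c : F0) * h - ((c • b : B) : F0) = (c : F0) * (h - (b : F0)) := by
          rw [smul_eq_mul]; push_cast; ring
        rw [this]
        exact sfc_piO_mul_left (sfc_le_O c.2) hb }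
  have hJ : ∀ b : B, b ∈ J ↔ ∃ h : F0, h ^ m * f ∈ B ∧
      h - (b : F0) ∈ sfc_piO B.toSubring ϖ := fun b => Iff.rfl
  have hJtop : J = ⊤ := by
    by_contra hne
    obtain ⟨𝔫, h𝔫max, hJ𝔫⟩ := Ideal.exists_le_maximal J hne
    by_cases hπ𝔫 : algebraMap A0 B π ∈ 𝔫
    · obtain ⟨b1, h, hb1, H, hb⟩ := hloc 𝔫 h𝔫max hπ𝔫
      exact hb1 (hJ𝔫 ((hJ b1).2 ⟨h, H, hb⟩))
    · apply hπ𝔫
      refine hJ𝔫 ((hJ _).2 ⟨0, by rw [zero_pow hm, zero_mul]; exact B.zero_mem, ?_⟩)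
      refine ⟨-1, neg_mem (one_mem _), ?_⟩
      show (0 : F0) - algebraMap A0 F0 π = ϖ * -1
      rw [hϖ]; ring
  have h1J : (1 : B) ∈ J := by rw [hJtop]; exact Submodule.mem_top
  obtain ⟨h, H, hb⟩ := (hJ 1).1 h1J
  exact ⟨h, H, by simpa using hb⟩

end Step1

section Main

universe v

variable {A0 : Type*} [CommRing A0] [IsDomain A0] [IsNoetherianRing A0]
  {F0 : Type v} [Field F0] [Algebra A0 F0]

/-- **Semistable F-core, main theorem.** -/
theorem sfc_main (π : A0) {x : F0} (hx : x ≠ 0) (m : ℕ) (hm : IsUnit (m : A0)) (f : F0)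
    [Algebra.IsAlgebraic (Algebra.adjoin A0 ({x} : Set F0)) F0]
    (hfin1 : Module.Finite (Algebra.adjoin A0 ({x} : Set F0))
      (integralClosure (Algebra.adjoin A0 ({x} : Set F0)) F0))
    (hnu : (algebraMap A0 F0 π)⁻¹ ∉ fc_chart A0 ({x, x⁻¹} : Set F0))
    (hxS1 : x ∈ sfc_S (fc_chart A0 ({x} : Set F0)).toSubring (algebraMap A0 F0 π))
    (hxS2 : x⁻¹ ∈ sfc_S (fc_chart A0 ({x⁻¹} : Set F0)).toSubring (algebraMap A0 F0 π))
    (hloc1 : ∀ 𝔫 : Ideal (fc_chart A0 ({x} : Set F0)), 𝔫.IsMaximal →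
      algebraMap A0 (fc_chart A0 ({x} : Set F0)) π ∈ 𝔫 →
      ∃ (b1 : fc_chart A0 ({x} : Set F0)) (h : F0), b1 ∉ 𝔫 ∧
        h ^ m * f ∈ fc_chart A0 ({x} : Set F0) ∧
        h - (b1 : F0) ∈ sfc_piO (fc_chart A0 ({x} : Set F0)).toSubring (algebraMap A0 F0 π))
    (hloc2 : ∀ 𝔫 : Ideal (fc_chart A0 ({x⁻¹} : Set F0)), 𝔫.IsMaximal →
      algebraMap A0 (fc_chart A0 ({x⁻¹} : Set F0)) π ∈ 𝔫 →
      ∃ (b1 : fc_chart A0 ({x⁻¹} : Set F0)) (h : F0), b1 ∉ 𝔫 ∧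
        h ^ m * f ∈ fc_chart A0 ({x⁻¹} : Set F0) ∧
        h - (b1 : F0) ∈ sfc_piO (fc_chart A0 ({x⁻¹} : Set F0)).toSubring (algebraMap A0 F0 π))
    (h4a : f - 1 ∈ sfc_piO (fc_chart A0 ({x, x⁻¹} : Set F0)).toSubring (algebraMap A0 F0 π))
    (hH0 : ∀ z : F0, z ∈ fc_chart A0 ({x} : Set F0) → z ∈ fc_chart A0 ({x⁻¹} : Set F0) →
      z ∈ (algebraMap A0 F0).range) :
    ∃ (c : A0) (g : F0), g ≠ 0 ∧ f = algebraMap A0 F0 c * g ^ m := by
  classical
  set ϖ := algebraMap A0 F0 π with hϖ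
  set B1 := fc_chart A0 ({x} : Set F0) with hB1
  set B2 := fc_chart A0 ({x⁻¹} : Set F0) with hB2
  set B12 := fc_chart A0 ({x, x⁻¹} : Set F0) with hB12
  have hm0 : m ≠ 0 := by
    rintro rfl
    rw [Nat.cast_zero] at hm
    exact not_isUnit_zero hm
  have hle1 : B1 ≤ B12 := fc_chart1_le x
  have hle2 : B2 ≤ B12 := fc_chart2_le x
  have hxB1 : x ∈ B1 := fc_x_mem_chart x
  have hxB2 : x⁻¹ ∈ B2 := fc_x_mem_chart x⁻¹
  have hxinv12 : x⁻¹ ∈ B12 := hle2 hxB2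
  have hx12 : x ∈ B12 := hle1 hxB1
  have hroot1 : ∀ z : F0, z ^ m ∈ B1 → z ∈ B1 := fun z => fc_chart_root hm0
  have hroot2 : ∀ z : F0, z ^ m ∈ B2 → z ∈ B2 := fun z => fc_chart_root hm0
  have hroot12 : ∀ z : F0, z ^ m ∈ B12 → z ∈ B12 := fun z => fc_chart_root hm0
  have hclear1 : ∀ z ∈ B12, ∃ k : ℕ, x ^ k * z ∈ B1 := fun z hz => fc_clear1 hx hz
  have hclear2 : ∀ z ∈ B12, ∃ k : ℕ, x⁻¹ ^ k * z ∈ B2 := fun z hz => fc_clear2 hx hz
  have hxx : x⁻¹⁻¹ ∈ B12 := by rw [inv_inv]; exact hx12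
  have hnu1 : ϖ⁻¹ ∉ B1 := fun h => hnu (hle1 h)
  have hnu2 : ϖ⁻¹ ∉ B2 := fun h => hnu (hle2 h)
  have hϖ12 : ϖ ∈ B12 := B12.algebraMap_mem π
  -- the semilocal Gauss ring and its comparison with the charts
  set O : Subring F0 := sfc_O B12.toSubring ϖ with hO
  have hO1 : sfc_O B1.toSubring ϖ = O :=
    sfc_O_eq (R := B1.toSubring) (R' := B12.toSubring) hle1 hxS1 hxinv12 hclear1
  have hO2 : sfc_O B2.toSubring ϖ = O :=
    sfc_O_eq (R := B2.toSubring) (R' := B12.toSubring) hle2 hxS2 hxx hclear2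
  have hP1 : sfc_piO B1.toSubring ϖ = sfc_piO B12.toSubring ϖ :=
    sfc_piO_eq (R := B1.toSubring) (R' := B12.toSubring) hle1 hxS1 hxinv12 hclear1
  have hP2 : sfc_piO B2.toSubring ϖ = sfc_piO B12.toSubring ϖ :=
    sfc_piO_eq (R := B2.toSubring) (R' := B12.toSubring) hle2 hxS2 hxx hclear2
  have hBO : ∀ z ∈ B12, z ∈ O := fun z hz => sfc_le_O (R := B12.toSubring) hz
  have hjac : ∀ y ∈ O, (1 + ϖ * y)⁻¹ ∈ O := fun y hy =>
    sfc_jac (R := B12.toSubring) hϖ12 hnu hy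
  have hπO : ϖ⁻¹ ∉ O := sfc_pi_inv_not_mem (R := B12.toSubring) hnu
  have hrootO : ∀ z : F0, z ^ m ∈ O → z ∈ O := fun z hz =>
    sfc_root (R := B12.toSubring) hm0 hroot12 hz
  have hsat12 : ∀ y ∈ O, ϖ * y ∈ B12 → y ∈ B12 := fun y hy h =>
    sfc_sat (R := B12.toSubring) hnu hy h
  have hsat1 : ∀ y ∈ O, ϖ * y ∈ B1 → y ∈ B1 := fun y hy h =>
    sfc_sat (R := B1.toSubring) hnu1 (hO1 ▸ hy) h
  have hsat2 : ∀ y ∈ O, ϖ * y ∈ B2 → y ∈ B2 := fun y hy h =>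
    sfc_sat (R := B2.toSubring) hnu2 (hO2 ▸ hy) h
  have hf : ∃ y ∈ O, f - 1 = ϖ * y := h4a
  have hf0 : f ≠ 0 := by
    rintro rfl
    apply sfc_one_not_mem_piO (R := B12.toSubring) hnu
    have := sfc_piO_neg h4a
    rwa [zero_sub, neg_neg] at this
  -- STEP 1 on both charts
  have hs1 : ∃ h : F0, h ^ m * f ∈ B1 ∧ ∃ y ∈ O, h - 1 = ϖ * y := by
    obtain ⟨h, hh, hh1⟩ := sfc_step1 B1 π m hm0 f hroot1 hloc1
    rw [hP1] at hh1
    exact ⟨h, hh, hh1⟩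
  have hs2 : ∃ h : F0, h ^ m * f ∈ B2 ∧ ∃ y ∈ O, h - 1 = ϖ * y := by
    obtain ⟨h, hh, hh1⟩ := sfc_step1 B2 π m hm0 f hroot2 hloc2
    rw [hP2] at hh1
    exact ⟨h, hh, hh1⟩
  -- the torsion bound
  have hfrac : ∃ a b : F0, a ∈ B1 ∧ b ∈ B1 ∧ b ≠ 0 ∧ f * b = a := by
    obtain ⟨a, b, hb, hab⟩ := IsFractionRing.div_surjective (A := B1) f
    have hb0 : (b : F0) ≠ 0 := by
      intro h0
      exact nonZeroDivisors.ne_zero hb (Subtype.ext h0)
    refine ⟨a, b, a.2, b.2, hb0, ?_⟩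
    rw [← hab]
    exact div_mul_cancel₀ _ hb0
  have hbound := fc_chart_hbound π hx m hm0 f hf0 (Module.Finite.iff_fg.1 hfin1) hfrac
  -- Newton
  obtain ⟨h, hh0, hh1, hh2⟩ := sfn_newton π m hm B1 B2 B12 hle1 hle2 O hBO hjac hπO hrootO
    hroot1 hroot2 hroot12 hsat1 hsat2 hsat12 f hf hs1 hs2 hbound
  obtain ⟨c, hc⟩ := hH0 _ hh1 hh2
  refine ⟨c, h⁻¹, inv_ne_zero hh0, ?_⟩
  rw [hc, inv_pow, mul_assoc, mul_comm f, ← mul_assoc, mul_inv_cancel₀ (pow_ne_zero m hh0), one_mul]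

end Main

end Fermat.Agent.SS
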