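import Mathlib
import Fermat.Agent.SS.SFC.Main

/-!
# SS / semistable F-core: bridges for the callers of `sfc_main`

* `sfc_mem_piO_iff` : `z ∈ ϖ O ↔ ∃ s ∈ S, s z ∈ ϖ R`.
* `sfc_mem_S_of_inf`, `sfc_mem_S_iff_of_inf` : when `ϖ R = P₁ ⊓ P₂` (reduced special fibre with two
  components) `S` is the complement of `P₁ ∪ P₂` (nonzero elements).
* `sfc_loc_of_factor` : the local STEP-1 output at a maximal ideal `𝔫` from a LOCAL FACTORISATION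
  `f = (1 + ϖ y) rᵐ`, `y ∈ B_𝔫`, `r ≡ 1 mod ϖ O`.
* `sfc_main_factor` : `sfc_main` with the local hypotheses in factorisation form.

WARNING (why `r ≡ 1 mod ϖ O` cannot be dropped): if only `f ≡ 1 mod ϖ O` and
`f = (1 + ϖ y_x) r_xᵐ` (`y_x ∈ B_x`) at every closed point are assumed, the reductions of the `r_x`
at the generic points of the special fibre are roots of unity which may differ from one component
to the other; they define a class in `H¹(dual graph, μ_m)` (the toric part of the Jacobian), and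
when it is nontrivial `f` is NOT of the form `c gᵐ`.
-/

set_option autoImplicit false
set_option linter.unusedSectionVars false

namespace Fermat.Agent.SS

open Fermat.Agent.JT3

section Bridge

variable {F : Type*} [Field F] {R : Subring F} {ϖ : F}

theorem sfc_mem_piO_iff (hnu : ϖ⁻¹ ∉ R) {z : F} :
    z ∈ sfc_piO R ϖ ↔ ∃ s ∈ sfc_S R ϖ, ∃ c ∈ R, s * z = ϖ * c := by
  have hϖ0 : ϖ ≠ 0 := by rintro rfl; rw [inv_zero] at hnu; exact hnu R.zero_mem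
  constructor
  · rintro ⟨y, ⟨s, hs, hsy⟩, rfl⟩
    exact ⟨s, hs, s * y, hsy, by ring⟩
  · rintro ⟨s, hs, c, hc, h⟩
    refine ⟨ϖ⁻¹ * z, ⟨s, hs, ?_⟩, by rw [← mul_assoc, mul_inv_cancel₀ hϖ0, one_mul]⟩
    have : s * (ϖ⁻¹ * z) = c := by
      rw [mul_comm ϖ⁻¹ z, ← mul_assoc, h, mul_comm ϖ c, mul_assoc, mul_inv_cancel₀ hϖ0, mul_one]
    rw [this]; exact hc

/-- when `ϖ R = P₁ ⊓ P₂` with `P₁, P₂` prime, every nonzero element outside `P₁ ∪ P₂` is a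
non-zero-divisor modulo `ϖ`. -/
theorem sfc_mem_S_of_inf (hϖ : ϖ ∈ R) (P₁ P₂ : Ideal R) [P₁.IsPrime] [P₂.IsPrime]
    (hrad : Ideal.span {(⟨ϖ, hϖ⟩ : R)} = P₁ ⊓ P₂) {s : R} (hs0 : s ≠ 0) (h1 : s ∉ P₁)
    (h2 : s ∉ P₂) : (s : F) ∈ sfc_S R ϖ := by
  refine ⟨s.2, fun h => hs0 (Subtype.ext h), ?_⟩
  rintro b hb ⟨c, hc, h⟩
  have hmem : s * ⟨b, hb⟩ ∈ Ideal.span {(⟨ϖ, hϖ⟩ : R)} := by
    rw [Ideal.mem_span_singleton]
    exact ⟨⟨c, hc⟩, Subtype.ext h⟩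
  rw [hrad] at hmem
  have hb1 : (⟨b, hb⟩ : R) ∈ P₁ := (Ideal.IsPrime.mem_or_mem inferInstance hmem.1).resolve_left h1
  have hb2 : (⟨b, hb⟩ : R) ∈ P₂ := (Ideal.IsPrime.mem_or_mem inferInstance hmem.2).resolve_left h2
  have hb' : (⟨b, hb⟩ : R) ∈ Ideal.span {(⟨ϖ, hϖ⟩ : R)} := by rw [hrad]; exact ⟨hb1, hb2⟩
  obtain ⟨c', hc'⟩ := Ideal.mem_span_singleton.1 hb'
  exact ⟨c', c'.2, congrArg Subtype.val hc'⟩

/-- converse: an element of `S` lies outside `P₁ ∪ P₂` when `P₁, P₂` are incomparable. -/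
theorem sfc_not_mem_of_mem_S (hϖ : ϖ ∈ R) (P₁ P₂ : Ideal R) [P₁.IsPrime] [P₂.IsPrime]
    (hrad : Ideal.span {(⟨ϖ, hϖ⟩ : R)} = P₁ ⊓ P₂) (h12 : ¬ P₁ ≤ P₂) (h21 : ¬ P₂ ≤ P₁) {s : R}
    (hs : (s : F) ∈ sfc_S R ϖ) : s ∉ P₁ ∧ s ∉ P₂ := by
  have key : ∀ (Q Q' : Ideal R), Ideal.span {(⟨ϖ, hϖ⟩ : R)} = Q ⊓ Q' → ¬ Q' ≤ Q → s ∉ Q := by
    intro Q Q' hr hnle hsQ
    obtain ⟨t, htQ', htQ⟩ := Set.not_subset.1 hnle
    have hmem : s * t ∈ Ideal.span {(⟨ϖ, hϖ⟩ : R)} := by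
      rw [hr]; exact ⟨Q.mul_mem_right _ hsQ, Q'.mul_mem_left _ htQ'⟩
    obtain ⟨c, hc⟩ := Ideal.mem_span_singleton.1 hmem
    obtain ⟨c', hc', h'⟩ := hs.2.2 t t.2 ⟨c, c.2, congrArg Subtype.val hc⟩
    apply htQ
    have : t ∈ Ideal.span {(⟨ϖ, hϖ⟩ : R)} :=
      Ideal.mem_span_singleton.2 ⟨⟨c', hc'⟩, Subtype.ext h'⟩
    rw [hr] at this
    exact this.1
  exact ⟨key P₁ P₂ hrad h21, key P₂ P₁ (by rw [hrad, inf_comm]) h12⟩

end Bridge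

section Factor

universe v

variable {A0 : Type*} [CommRing A0] {F0 : Type v} [Field F0] [Algebra A0 F0]

/-- **Local STEP-1 output from a local factorisation.**  `𝔫` a prime ideal of the chart `B`,
`f = (1 + ϖ y) rᵐ` with `y ∈ B_𝔫` (`s y ∈ B`, `s ∉ 𝔫`) and `r ≡ 1 mod ϖ O`. -/
theorem sfc_loc_of_factor (B : Subalgebra A0 F0) (π : A0)
    (hnu : (algebraMap A0 F0 π)⁻¹ ∉ B) (m : ℕ) (hm : m ≠ 0) (f : F0) (𝔫 : Ideal B)
    {r y : F0} {s : B} (hs𝔫 : s ∉ 𝔫) (hsy : (s : F0) * y ∈ B)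
    (hf : f = (1 + algebraMap A0 F0 π * y) * r ^ m)
    (hr : r - 1 ∈ sfc_piO B.toSubring (algebraMap A0 F0 π)) :
    ∃ (b1 : B) (h : F0), b1 ∉ 𝔫 ∧ h ^ m * f ∈ B ∧
      h - (b1 : F0) ∈ sfc_piO B.toSubring (algebraMap A0 F0 π) := by
  set ϖ := algebraMap A0 F0 π with hϖ
  have hϖB : ϖ ∈ B := B.algebraMap_mem π
  obtain ⟨y', hy', hry⟩ := hr
  have hr' : r = 1 + ϖ * y' := by rw [← hry]; ring
  have hrinv : r⁻¹ ∈ sfc_O B.toSubring ϖ := by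
    rw [hr']; exact sfc_jac (R := B.toSubring) hϖB hnu hy'
  have hr0 : r ≠ 0 := by
    intro h0
    apply sfc_pi_inv_not_mem (R := B.toSubring) hnu
    have h1 : ϖ * (-y') = 1 := by
      have : ϖ * y' = -1 := by
        have := hr'; rw [h0] at this; linear_combination -this
      rw [mul_neg, this, neg_neg]
    rw [inv_eq_of_mul_eq_one_right h1]
    exact neg_mem hy'
  refine ⟨s, (s : F0) * r⁻¹, hs𝔫, ?_, ?_⟩
  · obtain ⟨k, rfl⟩ := Nat.exists_eq_succ_of_ne_zero hm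
    have : ((s : F0) * r⁻¹) ^ (k + 1) * f =
        (s : F0) ^ (k + 1) + ϖ * ((s : F0) ^ k * ((s : F0) * y)) := by
      rw [hf, mul_pow, inv_pow]
      have hrk : r ^ (k + 1) ≠ 0 := pow_ne_zero _ hr0
      field_simp
      ring
    rw [this]
    exact B.add_mem (B.pow_mem s.2 _) (B.mul_mem hϖB (B.mul_mem (B.pow_mem s.2 _) hsy))
  · have : (s : F0) * r⁻¹ - (s : F0) = ((s : F0) * r⁻¹ * (-1)) * (r - 1) := by
      field_simp
      ring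
    rw [this]
    refine sfc_piO_mul_left ?_ ⟨y', hy', hry⟩
    exact mul_mem (mul_mem (sfc_le_O s.2) hrinv) (neg_mem (one_mem _))

variable [IsDomain A0] [IsNoetherianRing A0]

/-- **Semistable F-core, local factorisation form**: `f ≡ 1 mod π O`; at every closed point of the
special fibre of either chart `f = (1 + π y) rᵐ` with `y` in the local ring of the point and
`r ≡ 1 mod π O`.  Then `f = c gᵐ`. -/
theorem sfc_main_factor (π : A0) {x : F0} (hx : x ≠ 0) (m : ℕ) (hm : IsUnit (m : A0)) (f : F0)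
    [Algebra.IsAlgebraic (Algebra.adjoin A0 ({x} : Set F0)) F0]
    (hfin1 : Module.Finite (Algebra.adjoin A0 ({x} : Set F0))
      (integralClosure (Algebra.adjoin A0 ({x} : Set F0)) F0))
    (hnu : (algebraMap A0 F0 π)⁻¹ ∉ fc_chart A0 ({x, x⁻¹} : Set F0))
    (hxS1 : x ∈ sfc_S (fc_chart A0 ({x} : Set F0)).toSubring (algebraMap A0 F0 π))
    (hxS2 : x⁻¹ ∈ sfc_S (fc_chart A0 ({x⁻¹} : Set F0)).toSubring (algebraMap A0 F0 π))
    (hloc1 : ∀ 𝔫 : Ideal (fc_chart A0 ({x} : Set F0)), 𝔫.IsMaximal →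
      algebraMap A0 (fc_chart A0 ({x} : Set F0)) π ∈ 𝔫 →
      ∃ (r y : F0) (s : fc_chart A0 ({x} : Set F0)), s ∉ 𝔫 ∧
        (s : F0) * y ∈ fc_chart A0 ({x} : Set F0) ∧
        f = (1 + algebraMap A0 F0 π * y) * r ^ m ∧
        r - 1 ∈ sfc_piO (fc_chart A0 ({x, x⁻¹} : Set F0)).toSubring (algebraMap A0 F0 π))
    (hloc2 : ∀ 𝔫 : Ideal (fc_chart A0 ({x⁻¹} : Set F0)), 𝔫.IsMaximal →
      algebraMap A0 (fc_chart A0 ({x⁻¹} : Set F0)) π ∈ 𝔫 →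
      ∃ (r y : F0) (s : fc_chart A0 ({x⁻¹} : Set F0)), s ∉ 𝔫 ∧
        (s : F0) * y ∈ fc_chart A0 ({x⁻¹} : Set F0) ∧
        f = (1 + algebraMap A0 F0 π * y) * r ^ m ∧
        r - 1 ∈ sfc_piO (fc_chart A0 ({x, x⁻¹} : Set F0)).toSubring (algebraMap A0 F0 π))
    (h4a : f - 1 ∈ sfc_piO (fc_chart A0 ({x, x⁻¹} : Set F0)).toSubring (algebraMap A0 F0 π))
    (hH0 : ∀ z : F0, z ∈ fc_chart A0 ({x} : Set F0) → z ∈ fc_chart A0 ({x⁻¹} : Set F0) →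
      z ∈ (algebraMap A0 F0).range) :
    ∃ (c : A0) (g : F0), g ≠ 0 ∧ f = algebraMap A0 F0 c * g ^ m := by
  have hm0 : m ≠ 0 := by
    rintro rfl
    rw [Nat.cast_zero] at hm
    exact not_isUnit_zero hm
  have hle1 : fc_chart A0 ({x} : Set F0) ≤ fc_chart A0 ({x, x⁻¹} : Set F0) := fc_chart1_le x
  have hle2 : fc_chart A0 ({x⁻¹} : Set F0) ≤ fc_chart A0 ({x, x⁻¹} : Set F0) := fc_chart2_le x
  have hx12 : x ∈ fc_chart A0 ({x, x⁻¹} : Set F0) := hle1 (fc_x_mem_chart x)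
  have hxinv12 : x⁻¹ ∈ fc_chart A0 ({x, x⁻¹} : Set F0) := hle2 (fc_x_mem_chart x⁻¹)
  have hxx : x⁻¹⁻¹ ∈ fc_chart A0 ({x, x⁻¹} : Set F0) := by rw [inv_inv]; exact hx12
  have hP1 := sfc_piO_eq (R := (fc_chart A0 ({x} : Set F0)).toSubring)
    (R' := (fc_chart A0 ({x, x⁻¹} : Set F0)).toSubring) hle1 hxS1 hxinv12
    (fun z hz => fc_clear1 hx hz)
  have hP2 := sfc_piO_eq (R := (fc_chart A0 ({x⁻¹} : Set F0)).toSubring)
    (R' := (fc_chart A0 ({x, x⁻¹} : Set F0)).toSubring) hle2 hxS2 hxx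
    (fun z hz => fc_clear2 hx hz)
  refine sfc_main π hx m hm f hfin1 hnu hxS1 hxS2 ?_ ?_ h4a hH0
  · intro 𝔫 h𝔫 hπ𝔫
    obtain ⟨r, y, s, hs, hsy, hf, hr⟩ := hloc1 𝔫 h𝔫 hπ𝔫
    rw [← hP1] at hr
    exact sfc_loc_of_factor _ π (fun h => hnu (hle1 h)) m hm0 f 𝔫 hs hsy hf hr
  · intro 𝔫 h𝔫 hπ𝔫
    obtain ⟨r, y, s, hs, hsy, hf, hr⟩ := hloc2 𝔫 h𝔫 hπ𝔫
    rw [← hP2] at hr
    exact sfc_loc_of_factor _ π (fun h => hnu (hle2 h)) m hm0 f 𝔫 hs hsy hf hr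

end Factor

end Fermat.Agent.SS
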