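import Mathlib
import Fermat.Agent.SS.SFC.Bridge
import Fermat.Agent.JT3.FCore.FunField

/-!
# SS / semistable F-core in function-field form (`sfc_funField`)

`A0` a DVR with uniformiser `π` and fraction field `L` of characteristic zero, `F0 / L` a function
field: `x ∈ F0` transcendental over `L`, `F0` finite over `L(x)`, `L` algebraically closed in `F0`.
Then ALL the global hypotheses of `sfc_main_factor` are automatic:

* `hfin1` (finiteness of the chart) and the algebraicity instance: `fc_ff_finite`, `fc_ff_isAlgebraic`;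
* `hH0` (`B₁ ∩ B₂ = A0`): `fch_H0`;
* `hxS1`, `hxS2` (`x`, resp. `x⁻¹`, is a non-zero-divisor modulo `π` on the chart `B₁`, resp. `B₂`):
  `sfc_ff_mem_S`, from the normality of `A0[y] ≅ A0[X]` (comparison of the minimal polynomials of
  `y b = π c`);
* `hnu` (`π` is a non-unit of the overlap chart): `sfc_ff_hnu`.

What remains (`sfc_funField`): `f ≡ 1 mod π O` and the local factorisations `f = (1 + π y) rᵐ` at
the closed points of the special fibre of the two charts.
-/

set_option autoImplicit false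
set_option linter.unusedSectionVars false
set_option linter.style.haveILetI false

namespace Fermat.Agent.SS

open Polynomial IntermediateField Fermat.Agent.JT3

section Abstract

variable {R : Type*} [CommRing R] [IsDomain R] [IsIntegrallyClosed R]
  {F : Type*} [Field F] [Algebra R F] [FaithfulSMul R F]

/-- A monic polynomial `P` of degree `n` with `p^(n-i) ∣ P.coeff i` for all `i` and a root
`b = p z`: then `z` is integral. -/
theorem sfc_ff_isIntegral_of_pow_dvd_coeff {p : R} (hp0 : p ≠ 0) {P : R[X]} (hP : P.Monic)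
    (hdiv : ∀ i, p ^ (P.natDegree - i) ∣ P.coeff i) {b z : F}
    (hb : eval₂ (algebraMap R F) b P = 0) (hbz : b = algebraMap R F p * z) :
    IsIntegral R z := by
  classical
  set n := P.natDegree with hn
  choose d hd using hdiv
  set T : R[X] := ∑ i ∈ Finset.range (n + 1), monomial i (d i) with hT
  have hdn : d n = 1 := by
    have h1 := hd n
    rw [Nat.sub_self, pow_zero, one_mul, hn, Polynomial.coeff_natDegree, hP.leadingCoeff] at h1
    exact h1.symm
  have hTdeg : T.natDegree ≤ n := by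
    rw [hT]
    refine Polynomial.natDegree_sum_le_of_forall_le _ _ (fun i hi => ?_)
    exact (Polynomial.natDegree_monomial_le _).trans (Nat.lt_succ_iff.1 (Finset.mem_range.1 hi))
  have hTcoeff : T.coeff n = 1 := by
    rw [hT, Polynomial.finsetSum_coeff]
    rw [Finset.sum_eq_single n]
    · rw [Polynomial.coeff_monomial, if_pos rfl, hdn]
    · intro i _ hin
      rw [Polynomial.coeff_monomial, if_neg hin]
    · intro h
      exact absurd (Finset.mem_range.2 (Nat.lt_succ_self n)) h
  have hTm : T.Monic := Polynomial.monic_of_natDegree_le_of_coeff_eq_one n hTdeg hTcoeff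
  refine ⟨T, hTm, ?_⟩
  have hfp : algebraMap R F p ≠ 0 :=
    (map_ne_zero_iff _ (FaithfulSMul.algebraMap_injective R F)).2 hp0
  have key : algebraMap R F p ^ n * eval₂ (algebraMap R F) z T = eval₂ (algebraMap R F) b P := by
    rw [hT, Polynomial.eval₂_finsetSum, Finset.mul_sum,
      Polynomial.eval₂_eq_sum_range' (algebraMap R F) (Nat.lt_succ_self P.natDegree) b]
    refine Finset.sum_congr rfl (fun i hi => ?_)
    have hin : i ≤ n := Nat.lt_succ_iff.1 (Finset.mem_range.1 hi)
    rw [Polynomial.eval₂_monomial, hd i, map_mul, map_pow, hbz, mul_pow]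
    have : algebraMap R F p ^ n = algebraMap R F p ^ (n - i) * algebraMap R F p ^ i := by
      rw [← pow_add, Nat.sub_add_cancel hin]
    rw [this]
    ring
  rw [hb] at key
  exact (mul_eq_zero.1 key).resolve_left (pow_ne_zero _ hfp)

/-- **Non-zero-divisor lemma.** `R` integrally closed, `p` prime, `p ∤ y`; `b, c` integral over `R`
with `y b = p c`: then `b = p c'` with `c'` integral over `R`. -/
theorem sfc_ff_nzd {p y : R} (hp : Prime p) (hpy : ¬ p ∣ y) {b c : F}
    (hb : IsIntegral R b) (hc : IsIntegral R c)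
    (h : algebraMap R F y * b = algebraMap R F p * c) :
    ∃ c' : F, IsIntegral R c' ∧ b = algebraMap R F p * c' := by
  have hy0 : y ≠ 0 := fun h0 => hpy (h0 ▸ dvd_zero p)
  have hfp : algebraMap R F p ≠ 0 :=
    (map_ne_zero_iff _ (FaithfulSMul.algebraMap_injective R F)).2 hp.ne_zero
  have h1 : minpoly R (y • b) = (minpoly R b).scaleRoots y :=
    IsIntegrallyClosed.minpoly_smul hy0 hb
  have h2 : minpoly R (p • c) = (minpoly R c).scaleRoots p :=
    IsIntegrallyClosed.minpoly_smul hp.ne_zero hc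
  have h3 : y • b = p • c := by rw [Algebra.smul_def, Algebra.smul_def]; exact h
  rw [h3, h2] at h1
  have hdeg : (minpoly R c).natDegree = (minpoly R b).natDegree := by
    have := congrArg Polynomial.natDegree h1
    rwa [Polynomial.natDegree_scaleRoots, Polynomial.natDegree_scaleRoots] at this
  have hdiv : ∀ i, p ^ ((minpoly R b).natDegree - i) ∣ (minpoly R b).coeff i := by
    intro i
    have hc1 := congrArg (fun q : R[X] => q.coeff i) h1
    simp only [Polynomial.coeff_scaleRoots] at hc1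
    rw [hdeg] at hc1
    have hnd : ¬ p ∣ y ^ ((minpoly R b).natDegree - i) := fun hd => hpy (hp.dvd_of_dvd_pow hd)
    exact hp.pow_dvd_of_dvd_mul_right _ hnd ⟨(minpoly R c).coeff i, by rw [← hc1]; ring⟩
  refine ⟨(algebraMap R F p)⁻¹ * b, ?_, by rw [← mul_assoc, mul_inv_cancel₀ hfp, one_mul]⟩
  refine sfc_ff_isIntegral_of_pow_dvd_coeff hp.ne_zero (minpoly.monic hb) hdiv
    (b := b) ?_ (by rw [← mul_assoc, mul_inv_cancel₀ hfp, one_mul])
  rw [← Polynomial.aeval_def]
  exact minpoly.aeval R b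

omit [IsIntegrallyClosed R] in
/-- If `r ∈ R`, `r ≠ 0` and `r⁻¹` is integral over `R` then `r` has an inverse in `R`. -/
theorem sfc_ff_unit_of_inv_isIntegral {r : R} (hr : r ≠ 0)
    (h : IsIntegral R (algebraMap R F r)⁻¹) : ∃ r' : R, r * r' = 1 := by
  have hinj := FaithfulSMul.algebraMap_injective R F
  have hfr : algebraMap R F r ≠ 0 := (map_ne_zero_iff _ hinj).2 hr
  obtain ⟨P, hPm, hP⟩ := h
  letI : Invertible (algebraMap R F r)⁻¹ := invertibleOfNonzero (inv_ne_zero hfr)
  have h1 : eval₂ (algebraMap R F) (⅟((algebraMap R F r)⁻¹)) P.reverse = 0 :=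
    (Polynomial.eval₂_reverse_eq_zero_iff (algebraMap R F) ((algebraMap R F r)⁻¹) P).2 hP
  rw [invOf_eq_inv, inv_inv, Polynomial.eval₂_at_apply] at h1
  have h2 : Polynomial.eval r P.reverse = 0 := hinj (by rw [h1, map_zero])
  have h3 : P.reverse.coeff 0 = 1 := by
    rw [Polynomial.coeff_zero_reverse, hPm.leadingCoeff]
  have h4 := Polynomial.divX_mul_X_add P.reverse
  rw [h3] at h4
  rw [← h4] at h2
  simp only [Polynomial.eval_add, Polynomial.eval_mul, Polynomial.eval_X, Polynomial.eval_C] at h2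
  exact ⟨-(Polynomial.eval r P.reverse.divX), by linear_combination -h2⟩

end Abstract

section FunField

universe v

variable {A0 L : Type*} {F0 : Type v} [CommRing A0] [IsDomain A0] [IsDiscreteValuationRing A0]
  [Field L] [Field F0] [Algebra A0 L] [IsFractionRing A0 L] [Algebra L F0] [Algebra A0 F0]
  [IsScalarTower A0 L F0]

omit [IsFractionRing A0 L] [Algebra L F0] [IsScalarTower A0 L F0] [Field L] [Algebra A0 L] in
/-- In `A0[y] ≅ A0[X]` (`y` transcendental) the uniformiser `π` is prime and does not divide `y`. -/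
theorem sfc_ff_prime_pi {π : A0} (hπ : Irreducible π) {y : F0} (hy : Transcendental A0 y) :
    Prime (algebraMap A0 (Algebra.adjoin A0 ({y} : Set F0)) π) ∧
      ¬ (algebraMap A0 (Algebra.adjoin A0 ({y} : Set F0)) π ∣
        (⟨y, Algebra.subset_adjoin rfl⟩ : Algebra.adjoin A0 ({y} : Set F0))) := by
  have hinj : Function.Injective (aeval y : A0[X] →ₐ[A0] F0) :=
    transcendental_iff_injective.1 hy
  let e1 : A0[X] ≃ₐ[A0] (aeval y : A0[X] →ₐ[A0] F0).range :=
    AlgEquiv.ofInjective (aeval y) hinj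
  let e2 : (aeval y : A0[X] →ₐ[A0] F0).range ≃ₐ[A0] Algebra.adjoin A0 ({y} : Set F0) :=
    Subalgebra.equivOfEq _ _ (Algebra.adjoin_singleton_eq_range_aeval A0 y).symm
  let e : A0[X] ≃ₐ[A0] Algebra.adjoin A0 ({y} : Set F0) := e1.trans e2
  have heC : e (C π) = algebraMap A0 (Algebra.adjoin A0 ({y} : Set F0)) π := by
    have h0 : (C π : A0[X]) = algebraMap A0 A0[X] π := rfl
    rw [h0, AlgEquiv.commutes]
  have heX : e X = (⟨y, Algebra.subset_adjoin rfl⟩ : Algebra.adjoin A0 ({y} : Set F0)) := by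
    apply Subtype.ext
    change ((e2 (e1 X) : Algebra.adjoin A0 ({y} : Set F0)) : F0) = y
    rw [Subalgebra.equivOfEq_apply]
    change ((e1 X : (aeval y : A0[X] →ₐ[A0] F0).range) : F0) = y
    rw [AlgEquiv.ofInjective_apply]
    exact aeval_X y
  have hCπ : Prime (C π : A0[X]) := Polynomial.prime_C_iff.2 hπ.prime
  constructor
  · rw [← heC]
    exact (MulEquiv.prime_iff e).2 hCπ
  · rw [← heC, ← heX]
    intro hdvd
    have h1 : (C π : A0[X]) ∣ X := by
      have := map_dvd e.symm hdvd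
      rwa [AlgEquiv.symm_apply_apply, AlgEquiv.symm_apply_apply] at this
    obtain ⟨q, hq⟩ := h1
    have h2 := congrArg (fun t : A0[X] => t.coeff 1) hq
    simp only [Polynomial.coeff_X_one, Polynomial.coeff_C_mul] at h2
    exact hπ.not_isUnit (.of_mul_eq_one _ h2.symm)

/-- **(hxS)**: `y` is a non-zero-divisor modulo `π` on the chart `B_y` (normalisation of `A0[y]`),
for `y` transcendental. -/
theorem sfc_ff_mem_S {π : A0} (hπ : Irreducible π) {y : F0} (hy : Transcendental L y) :
    y ∈ sfc_S (fc_chart A0 ({y} : Set F0)).toSubring (algebraMap A0 F0 π) := by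
  have hyA : Transcendental A0 y := fc_ff_transcendental (L := L) hy
  have hy0 : y ≠ 0 := by
    rintro rfl
    exact hy isAlgebraic_zero
  haveI : IsIntegrallyClosed (Algebra.adjoin A0 ({y} : Set F0)) := fc_ff_isIntegrallyClosed hyA
  haveI : FaithfulSMul (Algebra.adjoin A0 ({y} : Set F0)) F0 :=
    (faithfulSMul_iff_algebraMap_injective _ _).2 Subtype.val_injective
  obtain ⟨hp, hpy⟩ := sfc_ff_prime_pi hπ hyA
  refine ⟨fc_x_mem_chart y, hy0, ?_⟩
  rintro b hb ⟨c, hc, hbc⟩
  obtain ⟨c', hc', hbc'⟩ := sfc_ff_nzd (R := Algebra.adjoin A0 ({y} : Set F0)) (F := F0) hp hpy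
    (b := b) (c := c) hb hc hbc
  exact ⟨c', hc', hbc'⟩

/-- `π` is not a unit of the chart `B_y`. -/
theorem sfc_ff_pi_inv_not_mem {π : A0} (hπ : Irreducible π) {y : F0} (hy : Transcendental L y) :
    (algebraMap A0 F0 π)⁻¹ ∉ fc_chart A0 ({y} : Set F0) := by
  have hyA : Transcendental A0 y := fc_ff_transcendental (L := L) hy
  haveI : FaithfulSMul (Algebra.adjoin A0 ({y} : Set F0)) F0 :=
    (faithfulSMul_iff_algebraMap_injective _ _).2 Subtype.val_injective
  obtain ⟨hp, -⟩ := sfc_ff_prime_pi hπ hyA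
  intro h
  obtain ⟨r', hr'⟩ := sfc_ff_unit_of_inv_isIntegral (R := Algebra.adjoin A0 ({y} : Set F0))
    (F := F0) hp.ne_zero h
  exact hp.not_isUnit (.of_mul_eq_one _ hr')

/-- **(hnu)**: `π` is not a unit of the overlap chart. -/
theorem sfc_ff_hnu {π : A0} (hπ : Irreducible π) {x : F0} (hx : Transcendental L x) :
    (algebraMap A0 F0 π)⁻¹ ∉ fc_chart A0 ({x, x⁻¹} : Set F0) := by
  have hx0 : x ≠ 0 := by
    rintro rfl
    exact hx isAlgebraic_zero
  have hϖ0 : algebraMap A0 F0 π ≠ 0 := by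
    rw [IsScalarTower.algebraMap_apply A0 L F0]
    exact (map_ne_zero_iff _ (algebraMap L F0).injective).2
      ((map_ne_zero_iff _ (IsFractionRing.injective A0 L)).2 hπ.ne_zero)
  intro h
  obtain ⟨k, hk⟩ := fc_clear1 hx0 h
  have hS := sfc_S_pow (sfc_ff_mem_S (L := L) hπ hx) k
  obtain ⟨c', hc', h1⟩ := hS.2.2 1 (Subring.one_mem _)
    ⟨x ^ k * (algebraMap A0 F0 π)⁻¹, hk, by
      rw [mul_one, mul_comm (x ^ k), ← mul_assoc, mul_inv_cancel₀ hϖ0, one_mul]⟩
  apply sfc_ff_pi_inv_not_mem (L := L) hπ hx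
  rw [inv_eq_of_mul_eq_one_right h1.symm]
  exact hc'

variable [CharZero L]

/-- **Semistable F-core, function-field form.**  `A0` a DVR with uniformiser `π`, `L = Frac A0` of
characteristic zero, `F0 / L` a function field with coordinate `x`, `L` algebraically closed in
`F0`, `m` a unit of `A0`.  If `f ≡ 1 mod π O` (`O` the semilocal Gauss ring of the overlap chart)
and at every closed point of the special fibre of either chart `f = (1 + π y) rᵐ` with `y` in the
local ring of the point and `r ≡ 1 mod π O`, then `f = c gᵐ` with `c ∈ A0`. -/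
theorem sfc_funField {π : A0} (hπ : Irreducible π) {x : F0} (hx : Transcendental L x)
    [FiniteDimensional L⟮x⟯ F0]
    (hconst : ∀ z : F0, IsAlgebraic L z → z ∈ (algebraMap L F0).range)
    (m : ℕ) (hm : IsUnit (m : A0)) (f : F0)
    (hloc1 : ∀ 𝔫 : Ideal (fc_chart A0 ({x} : Set F0)), 𝔫.IsMaximal →
      algebraMap A0 (fc_chart A0 ({x} : Set F0)) π ∈ 𝔫 →
      ∃ (r y : F0) (s : fc_chart A0 ({x} : Set F0)), s ∉ 𝔫 ∧
        (s : F0) * y ∈ fc_chart A0 ({x} : Set F0) ∧
        f = (1 + algebraMap A0 F0 π * y) * r ^ m ∧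
        r - 1 ∈ sfc_piO (fc_chart A0 ({x, x⁻¹} : Set F0)).toSubring (algebraMap A0 F0 π))
    (hloc2 : ∀ 𝔫 : Ideal (fc_chart A0 ({x⁻¹} : Set F0)), 𝔫.IsMaximal →
      algebraMap A0 (fc_chart A0 ({x⁻¹} : Set F0)) π ∈ 𝔫 →
      ∃ (r y : F0) (s : fc_chart A0 ({x⁻¹} : Set F0)), s ∉ 𝔫 ∧
        (s : F0) * y ∈ fc_chart A0 ({x⁻¹} : Set F0) ∧
        f = (1 + algebraMap A0 F0 π * y) * r ^ m ∧
        r - 1 ∈ sfc_piO (fc_chart A0 ({x, x⁻¹} : Set F0)).toSubring (algebraMap A0 F0 π))
    (h4a : f - 1 ∈ sfc_piO (fc_chart A0 ({x, x⁻¹} : Set F0)).toSubring (algebraMap A0 F0 π)) :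
    ∃ (c : A0) (g : F0), g ≠ 0 ∧ f = algebraMap A0 F0 c * g ^ m := by
  have hx0 : x ≠ 0 := by
    rintro rfl
    exact hx isAlgebraic_zero
  have hxi : Transcendental L x⁻¹ := fun h => hx (IsAlgebraic.inv_iff.mp h)
  haveI i1 : Algebra.IsAlgebraic (Algebra.adjoin A0 ({x} : Set F0)) F0 :=
    fc_ff_isAlgebraic (L := L) x
  exact sfc_main_factor π hx0 m hm f (fc_ff_finite (L := L) hx) (sfc_ff_hnu (L := L) hπ hx)
    (sfc_ff_mem_S (L := L) hπ hx) (sfc_ff_mem_S (L := L) hπ hxi) hloc1 hloc2 h4a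
    (fun z h1 h2 => fch_H0 x hx hconst z h1 h2)

end FunField

end Fermat.Agent.SS
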